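import Mathlib
import Fermat.Agent.LT.T6.Spec
import Fermat.Agent.LT.T6.H220.UnrInt

/-!
# Row LT, tower T6, leaf T6.13.3b.5 `H865.H90rC865`, part 1 (seat helper820, OFF-MAIN)

Algebra: the NON-COMMUTATIVE Poincaré series for `2 × 2` matrices.

For `U, c ∈ M₂(R)` and an automorphism `s` of `R` put `P₀ = 1`, `P_{m+1} = U · s(P_m)` (the
partial twisted norms) and `B = ∑_{m<l} P_m · s^m(c)`.  If `s^l = 1` on the entries of `c`:

    U · s(B) = B + (P_l - 1) · c        (`mPoincare820`).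

Also: `P_m(d • U) = pnm220 s m d • P_m(U)` for a scalar `d`, `det P_{m+1} = det U · s(det P_m)`,
and the twisted norm of `T6/Spec.lean` is `P_l` (`coe_twNorm820`).
-/

set_option autoImplicit false

open scoped Matrix

noncomputable section

namespace Fermat.Agent.LT.T6.H820

open Fermat.Agent.LT.T6 Fermat.Agent.LT.T6.H220

section Algebra

variable {R : Type} [CommRing R]

/-- The partial twisted norms `P₀ = 1`, `P_{m+1} = U · s(P_m)` of a matrix. -/
def mPN820 (s : R ≃+* R) (U : Matrix (Fin 2) (Fin 2) R) : ℕ → Matrix (Fin 2) (Fin 2) R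
  | 0 => 1
  | (m + 1) => U * (mPN820 s U m).map s

@[simp] theorem mPN_zero820 (s : R ≃+* R) (U : Matrix (Fin 2) (Fin 2) R) : mPN820 s U 0 = 1 := rfl

theorem mPN_succ820 (s : R ≃+* R) (U : Matrix (Fin 2) (Fin 2) R) (m : ℕ) :
    mPN820 s U (m + 1) = U * (mPN820 s U m).map s := rfl

/-- The Poincaré series `B = ∑_{m<l} P_m · s^m(c)`. -/
def mPser820 (s : R ≃+* R) (l : ℕ) (U c : Matrix (Fin 2) (Fin 2) R) :
    Matrix (Fin 2) (Fin 2) R :=
  ∑ m ∈ Finset.range l, mPN820 s U m * c.map (s ^ m : R ≃+* R)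

theorem map_mul820 (s : R ≃+* R) (X Y : Matrix (Fin 2) (Fin 2) R) :
    (X * Y).map s = X.map s * Y.map s := by
  ext a b
  simp [Matrix.mul_apply, Matrix.map_apply]

theorem map_sum820 (s : R ≃+* R) {ι : Type} (t : Finset ι)
    (f : ι → Matrix (Fin 2) (Fin 2) R) :
    (∑ m ∈ t, f m).map s = ∑ m ∈ t, (f m).map s := by
  ext a b
  simp [Matrix.map_apply, Matrix.sum_apply]

theorem map_smul820 (s : R ≃+* R) (d : R) (X : Matrix (Fin 2) (Fin 2) R) :
    (d • X).map s = s d • X.map s := by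
  ext a b
  simp [Matrix.map_apply]

theorem map_pow_succ820 (s : R ≃+* R) (m : ℕ) (c : Matrix (Fin 2) (Fin 2) R) :
    (c.map (s ^ m : R ≃+* R)).map s = c.map (s ^ (m + 1) : R ≃+* R) := by
  ext a b
  simp only [Matrix.map_apply]
  rw [pow_succ', RingAut.mul_apply]

/-- **The non-commutative Poincaré series identity.** -/
theorem mPoincare820 (s : R ≃+* R) (l : ℕ) (U c : Matrix (Fin 2) (Fin 2) R)
    (hc : ∀ a b, (s ^ l) (c a b) = c a b) :
    U * (mPser820 s l U c).map s = mPser820 s l U c + (mPN820 s U l - 1) * c := by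
  unfold mPser820
  rw [map_sum820, Finset.mul_sum]
  have h1 : ∀ m ∈ Finset.range l, U * (mPN820 s U m * c.map (s ^ m : R ≃+* R)).map s
      = mPN820 s U (m + 1) * c.map (s ^ (m + 1) : R ≃+* R) := by
    intro m _
    rw [map_mul820, map_pow_succ820, mPN_succ820, mul_assoc]
  rw [Finset.sum_congr rfl h1]
  have h2 := Finset.sum_range_succ' (fun m => mPN820 s U m * c.map (s ^ m : R ≃+* R)) l
  have h3 := Finset.sum_range_succ (fun m => mPN820 s U m * c.map (s ^ m : R ≃+* R)) l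
  have hcl : c.map (s ^ l : R ≃+* R) = c := by
    ext a b
    simp only [Matrix.map_apply]
    exact hc a b
  have hc0 : c.map (s ^ 0 : R ≃+* R) = c := by
    ext a b
    simp
  simp only [mPN_zero820, one_mul, hc0] at h2
  rw [hcl] at h3
  have h4 : ∑ m ∈ Finset.range l, mPN820 s U (m + 1) * c.map (s ^ (m + 1) : R ≃+* R)
      = ∑ m ∈ Finset.range l, mPN820 s U m * c.map (s ^ m : R ≃+* R) + mPN820 s U l * c - c := by
    rw [← h3, h2]
    abel
  rw [h4, sub_mul, one_mul]
  abel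

/-- Scaling: `P_m(d • U) = pnm220 s m d • P_m(U)`. -/
theorem mPN_smul820 (s : R ≃+* R) (d : R) (U : Matrix (Fin 2) (Fin 2) R) (m : ℕ) :
    mPN820 s (d • U) m = pnm220 s m d • mPN820 s U m := by
  induction m with
  | zero => simp [pnm_zero220]
  | succ n ih =>
    rw [mPN_succ820, ih, map_smul820, pnm_succ220, mPN_succ820, smul_mul_assoc, mul_smul_comm,
      smul_smul]

theorem det_map820 (s : R ≃+* R) (X : Matrix (Fin 2) (Fin 2) R) :
    (X.map s).det = s X.det := by
  simp [Matrix.det_fin_two]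

theorem det_mPN_succ820 (s : R ≃+* R) (U : Matrix (Fin 2) (Fin 2) R) (m : ℕ) :
    (mPN820 s U (m + 1)).det = U.det * s (mPN820 s U m).det := by
  rw [mPN_succ820, Matrix.det_mul, det_map820]

/-- The twisted norm of `T6/Spec.lean` is `P_l`. -/
theorem coe_twN820 (s : R ≃+* R) (u : GL (Fin 2) R) (m : ℕ) :
    ((twN (glAut s) m u : GL (Fin 2) R) : Matrix (Fin 2) (Fin 2) R)
      = mPN820 s (u : Matrix (Fin 2) (Fin 2) R) m := by
  induction m with
  | zero => rfl
  | succ n ih =>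
    change ((u * glAut s (twN (glAut s) n u) : GL (Fin 2) R) : Matrix (Fin 2) (Fin 2) R) = _
    rw [Matrix.GeneralLinearGroup.coe_mul, mPN_succ820, ← ih]
    rfl

theorem coe_twNorm820 (s : R ≃+* R) (u : GL (Fin 2) R) (l : ℕ) :
    ((twNorm s l u : GL (Fin 2) R) : Matrix (Fin 2) (Fin 2) R)
      = mPN820 s (u : Matrix (Fin 2) (Fin 2) R) l :=
  coe_twN820 s u l

theorem coe_glAut820 (s : R ≃+* R) (y : GL (Fin 2) R) :
    ((glAut s y : GL (Fin 2) R) : Matrix (Fin 2) (Fin 2) R)
      = (y : Matrix (Fin 2) (Fin 2) R).map s := rfl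

/-- The entries of the Poincaré series for a diagonal `c`. -/
theorem mPser_diag_apply820 (s : R ≃+* R) (l : ℕ) (U : Matrix (Fin 2) (Fin 2) R)
    (t : Fin 2 → R) (a b : Fin 2) :
    mPser820 s l U (Matrix.diagonal t) a b
      = ∑ m ∈ Finset.range l, mPN820 s U m a b * (s ^ m) (t b) := by
  unfold mPser820
  rw [Matrix.sum_apply]
  refine Finset.sum_congr rfl fun m _ => ?_
  rw [Matrix.diagonal_map (map_zero _), Matrix.mul_diagonal]

end Algebra

end Fermat.Agent.LT.T6.H820

end
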