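import Mathlib
import Fermat.Agent.LT.T6.Spec
import Fermat.Agent.LT.T6.H865.TwEllSpec
import Fermat.Agent.LT.T6.H220.UnrNorm
import Fermat.Agent.LT.T6.H820.H90rAlg

/-!
# Row LT, tower T6, LEAF T6.13.3b.5 `H865.H90rC865` (seat helper820, OFF-MAIN)

`h90rC820 : H865.H90rC865`, VERBATIM vs `T6/H865/TwEllSpec.lean` (helper865@cff3afd09, sha256
ce4fd7ce0a273736).  Tools: UNR-CORE of helper220 (`norm_units_surj220`,
`exists_resSum_ne_zero220`), byte-identical copies.

## Proof (ONE step, no induction on the level)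

`r = 0`: `y = 1`, `c₀ = 1`, `m = u - 1`.  Let `r ≥ 1`.  Then `a` is a unit (`det N u` is a unit
and `N u ≡ a` modulo `ϖ`); choose `c₀ ∈ 𝒪'ˣ` with `N c₀ = a` and put `U₁ = c₀⁻¹ u`, so
`P_l(U₁) = a⁻¹ N u = 1 + ϖ^r a⁻¹ M`.  For `c = diag(θ, θ'')` with integral `θ`, `θ''` the
Poincaré series `B = ∑_{m<l} P_m(U₁) s^m(c)` is integral and

    U₁ · s(B) = B + ϖ^r (a⁻¹ M) c                 (`H90rAlg.mPoincare820`).

By Dedekind independence (`dedekind_val820`) `θ` can be chosen with `B₀₀` a unit (the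
coefficient of `θ` in `B₀₀ = ∑ P_m(U₁)₀₀ s^m θ` is `1`), and then `θ''` with `det B` a unit
(`det B = ∑ (B₀₀ P_m(U₁)₁₁ - B₁₀ P_m(U₁)₀₁) s^m θ''`, the coefficient of `θ''` is `B₀₀`).
So `y = B ∈ GL₂(𝒪')` and `y⁻¹ u s(y) = c₀ (1 + ϖ^r y⁻¹ (a⁻¹ M) c)`.
-/

set_option autoImplicit false

open scoped Matrix Valued

noncomputable section

namespace Fermat.Agent.LT.T6.H820

open Fermat.Agent.LT.T6 Fermat.Agent.LT.T6.H220 Fermat.Agent.LT.T6.H865

/-! ## Integral matrices -/

section IntM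

variable {K : Type} [Field K] [Valued K Γ₀]

/-- The entries of `X` are integral. -/
def IsIntM820 (X : Matrix (Fin 2) (Fin 2) K) : Prop := ∀ a b, Valued.v (X a b) ≤ 1

theorem isIntM_one820 : IsIntM820 (1 : Matrix (Fin 2) (Fin 2) K) := by
  intro a b
  by_cases h : a = b
  · subst h; simp
  · simp [Matrix.one_apply_ne h]

theorem isIntM_mul820 {X Y : Matrix (Fin 2) (Fin 2) K} (hX : IsIntM820 X) (hY : IsIntM820 Y) :
    IsIntM820 (X * Y) := by
  intro a b
  rw [Matrix.mul_apply]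
  refine Valuation.map_sum_le _ fun j _ => ?_
  rw [map_mul]
  exact mul_le_one' (hX a j) (hY j b)

theorem isIntM_add820 {X Y : Matrix (Fin 2) (Fin 2) K} (hX : IsIntM820 X) (hY : IsIntM820 Y) :
    IsIntM820 (X + Y) := by
  intro a b
  rw [Matrix.add_apply]
  exact (Valued.v.map_add _ _).trans (max_le (hX a b) (hY a b))

theorem isIntM_sub820 {X Y : Matrix (Fin 2) (Fin 2) K} (hX : IsIntM820 X) (hY : IsIntM820 Y) :
    IsIntM820 (X - Y) := by
  intro a b
  rw [Matrix.sub_apply]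
  exact (Valued.v.map_sub _ _).trans (max_le (hX a b) (hY a b))

theorem isIntM_smul820 {d : K} {X : Matrix (Fin 2) (Fin 2) K} (hd : Valued.v d ≤ 1)
    (hX : IsIntM820 X) : IsIntM820 (d • X) := by
  intro a b
  rw [Matrix.smul_apply, smul_eq_mul, map_mul]
  exact mul_le_one' hd (hX a b)

theorem isIntM_sum820 {ι : Type} (t : Finset ι) {f : ι → Matrix (Fin 2) (Fin 2) K}
    (hf : ∀ m ∈ t, IsIntM820 (f m)) : IsIntM820 (∑ m ∈ t, f m) := by
  intro a b
  rw [Matrix.sum_apply]
  exact Valuation.map_sum_le _ fun m hm => hf m hm a b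

theorem isIntM_map820 (s : K ≃+* K) (hs : ∀ y : K, Valued.v (s y) = Valued.v y)
    {X : Matrix (Fin 2) (Fin 2) K} (hX : IsIntM820 X) : IsIntM820 (X.map s) := by
  intro a b
  rw [Matrix.map_apply, hs]
  exact hX a b

theorem isIntM_map_pow820 (s : K ≃+* K) (hs : ∀ y : K, Valued.v (s y) = Valued.v y) (m : ℕ)
    {X : Matrix (Fin 2) (Fin 2) K} (hX : IsIntM820 X) :
    IsIntM820 (X.map (s ^ m : K ≃+* K)) := by
  intro a b
  rw [Matrix.map_apply, val_pow_s220 s hs]
  exact hX a b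

theorem val_det_le820 {X : Matrix (Fin 2) (Fin 2) K} (hX : IsIntM820 X) :
    Valued.v X.det ≤ 1 := by
  rw [Matrix.det_fin_two]
  refine (Valued.v.map_sub _ _).trans (max_le ?_ ?_)
  · rw [map_mul]; exact mul_le_one' (hX 0 0) (hX 1 1)
  · rw [map_mul]; exact mul_le_one' (hX 0 1) (hX 1 0)

/-- `InU 0` in terms of integrality. -/
theorem inU_zero_iff820 (g : GL (Fin 2) K) :
    InU 0 g ↔ IsIntM820 (g : Matrix (Fin 2) (Fin 2) K)
      ∧ IsIntM820 ((g⁻¹ : GL (Fin 2) K) : Matrix (Fin 2) (Fin 2) K) := by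
  have h0 : (WithZero.exp (-((0 : ℕ) : ℤ)) : Γ₀) = 1 := by simp
  have key : ∀ X : Matrix (Fin 2) (Fin 2) K,
      (∀ a b, Valued.v (X a b - (1 : Matrix (Fin 2) (Fin 2) K) a b) ≤ (1 : Γ₀)) ↔
        IsIntM820 X := by
    intro X
    constructor
    · intro h a b
      have e : X a b = (X a b - (1 : Matrix (Fin 2) (Fin 2) K) a b)
          + (1 : Matrix (Fin 2) (Fin 2) K) a b := by ring
      rw [e]
      exact (Valued.v.map_add _ _).trans (max_le (h a b) (isIntM_one820 a b))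
    · intro h a b
      exact (Valued.v.map_sub _ _).trans (max_le (h a b) (isIntM_one820 a b))
  unfold InU
  rw [h0]
  constructor
  · intro h
    exact ⟨(key _).1 fun a b => (h a b).1, (key _).1 fun a b => (h a b).2⟩
  · rintro ⟨h1, h2⟩ a b
    exact ⟨(key _).2 h1 a b, (key _).2 h2 a b⟩

/-- An integral matrix with unit determinant, as an element of `GL₂(𝒪)`. -/
theorem exists_gl_of_det_unit820 {B : Matrix (Fin 2) (Fin 2) K} (hB : IsIntM820 B)
    (hdet : Valued.v B.det = 1) :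
    ∃ y : GL (Fin 2) K, (y : Matrix (Fin 2) (Fin 2) K) = B ∧ InU 0 y := by
  have hne : B.det ≠ 0 := by
    intro h0
    rw [h0, map_zero] at hdet
    exact zero_ne_one hdet
  refine ⟨Matrix.GeneralLinearGroup.mkOfDetNeZero B hne, rfl, ?_⟩
  rw [inU_zero_iff820]
  refine ⟨hB, ?_⟩
  intro a b
  have hinv : ((Matrix.GeneralLinearGroup.mkOfDetNeZero B hne)⁻¹ : GL (Fin 2) K).val
      = B⁻¹ := by
    rw [Matrix.coe_units_inv]
    rfl
  rw [hinv, Matrix.inv_def, Matrix.smul_apply, smul_eq_mul, map_mul, Ring.inverse_eq_inv',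
    map_inv₀, hdet, inv_one, one_mul, Matrix.adjugate_fin_two]
  fin_cases a <;> fin_cases b
  · simpa using hB 1 1
  · simpa using hB 0 1
  · simpa using hB 1 0
  · simpa using hB 0 0

end IntM

/-! ## Dedekind independence in valuation form -/

section Unr

variable {k k' : Type} [Field k] [Field k'] [Valued k Γ₀] [Valued k' Γ₀]
  {q l : ℕ} {i : k →+* k'} {s : k' ≃+* k'}

/-- **Dedekind independence, valuation form.**  If the `a_m` are integral and one of them
(`m < l`) is a unit, some integral `θ` has `∑_{m<l} a_m s^m θ` a unit. -/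
theorem dedekind_val820 (hk : IsLocalField k q) (hk' : IsLocalField k' (q ^ l))
    (hext : IsLocalExt k k' l 1 i s) (hl : l.Prime) (a : ℕ → k')
    (ha : ∀ m, Valued.v (a m) ≤ 1) (j₀ : ℕ) (hj₀ : j₀ < l) (h1 : Valued.v (a j₀) = 1) :
    ∃ θ : k', Valued.v θ ≤ 1 ∧
      Valued.v (∑ m ∈ Finset.range l, a m * (s ^ m) θ) = 1 := by
  have : NeZero l := ⟨hl.ne_zero⟩
  obtain ⟨θb, hθb⟩ := exists_resSum_ne_zero220 hk hk' hext hl
    (fun j : Fin l => IsLocalRing.residue 𝒪[k'] (intMk220 (a (j : ℕ)) (ha j))) ⟨j₀, hj₀⟩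
    ((residue_ne_zero_iff220 _).2 h1)
  obtain ⟨θ, rfl⟩ := IsLocalRing.residue_surjective (R := 𝒪[k']) θb
  refine ⟨θ, int_val_le220 θ, ?_⟩
  have hle : Valued.v (∑ m ∈ Finset.range l, a m * (s ^ m) (θ : k')) ≤ 1 := by
    refine Valuation.map_sum_le _ fun m _ => ?_
    rw [map_mul, val_pow_s220 s hext.val_s]
    exact mul_le_one' (ha m) (int_val_le220 θ)
  rw [Fin.sum_univ_eq_sum_range
    (fun m => IsLocalRing.residue 𝒪[k'] (intMk220 (a m) (ha m)) *
      (sRes220 s hext.val_s ^ m) (IsLocalRing.residue 𝒪[k'] θ)) l] at hθb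
  have e1 : intMk220 (∑ m ∈ Finset.range l, a m * (s ^ m) (θ : k')) hle
      = ∑ m ∈ Finset.range l, intMk220 (a m) (ha m) *
          intMk220 ((s ^ m) (θ : k'))
            (by rw [val_pow_s220 s hext.val_s]; exact int_val_le220 θ) := by
    ext
    simp
  have e2 : IsLocalRing.residue 𝒪[k']
      (intMk220 (∑ m ∈ Finset.range l, a m * (s ^ m) (θ : k')) hle)
      = ∑ m ∈ Finset.range l, IsLocalRing.residue 𝒪[k'] (intMk220 (a m) (ha m)) *
          (sRes220 s hext.val_s ^ m) (IsLocalRing.residue 𝒪[k'] θ) := by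
    rw [e1, map_sum]
    refine Finset.sum_congr rfl fun m _ => ?_
    rw [map_mul, sRes_pow_residue220 s hext.val_s m θ]
  rw [← e2, residue_ne_zero_iff220] at hθb
  exact hθb

theorem isIntM_mPN820 (hext : IsLocalExt k k' l 1 i s) {U : Matrix (Fin 2) (Fin 2) k'}
    (hU : IsIntM820 U) (m : ℕ) : IsIntM820 (mPN820 s U m) := by
  induction m with
  | zero => exact isIntM_one820
  | succ n ih => exact isIntM_mul820 hU (isIntM_map820 s hext.val_s ih)

theorem val_det_mPN820 (hext : IsLocalExt k k' l 1 i s) {U : Matrix (Fin 2) (Fin 2) k'}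
    (hU : Valued.v U.det = 1) (m : ℕ) : Valued.v (mPN820 s U m).det = 1 := by
  induction m with
  | zero => simp
  | succ n ih => rw [det_mPN_succ820, map_mul, hext.val_s, hU, ih, one_mul]

theorem isIntM_mPser820 (hext : IsLocalExt k k' l 1 i s) {U c : Matrix (Fin 2) (Fin 2) k'}
    (hU : IsIntM820 U) (hc : IsIntM820 c) : IsIntM820 (mPser820 s l U c) := by
  unfold mPser820
  exact isIntM_sum820 _ fun m _ =>
    isIntM_mul820 (isIntM_mPN820 hext hU m) (isIntM_map_pow820 s hext.val_s m hc)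

/-- **The Poincaré series can be made invertible.**  For an integral `U` there is an integral
diagonal `c` such that `B = ∑_{m<l} P_m(U) s^m(c)` has unit determinant. -/
theorem exists_pser_unit820 (hk : IsLocalField k q) (hk' : IsLocalField k' (q ^ l))
    (hext : IsLocalExt k k' l 1 i s) (hl : l.Prime) {U : Matrix (Fin 2) (Fin 2) k'}
    (hU : IsIntM820 U) :
    ∃ c : Matrix (Fin 2) (Fin 2) k', IsIntM820 c ∧ (∀ a b, (s ^ l) (c a b) = c a b) ∧
      Valued.v (mPser820 s l U c).det = 1 := by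
  have hP := isIntM_mPN820 hext hU
  -- first column
  obtain ⟨θ, hθ, hθ1⟩ := dedekind_val820 hk hk' hext hl (fun m => mPN820 s U m 0 0)
    (fun m => hP m 0 0) 0 hl.pos (by simp)
  -- the entries of the first column
  set B00 : k' := ∑ m ∈ Finset.range l, mPN820 s U m 0 0 * (s ^ m) θ with hB00
  set B10 : k' := ∑ m ∈ Finset.range l, mPN820 s U m 1 0 * (s ^ m) θ with hB10
  have hB10le : Valued.v B10 ≤ 1 := by
    refine Valuation.map_sum_le _ fun m _ => ?_
    rw [map_mul, val_pow_s220 s hext.val_s]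
    exact mul_le_one' (hP m 1 0) hθ
  -- second column
  obtain ⟨θ', hθ', hθ'1⟩ := dedekind_val820 hk hk' hext hl
    (fun m => B00 * mPN820 s U m 1 1 - B10 * mPN820 s U m 0 1)
    (fun m => by
      refine (Valued.v.map_sub _ _).trans (max_le ?_ ?_)
      · rw [map_mul]; exact mul_le_one' hθ1.le (hP m 1 1)
      · rw [map_mul]; exact mul_le_one' hB10le (hP m 0 1))
    0 hl.pos (by simp [hθ1])
  let t : Fin 2 → k' := ![θ, θ']
  refine ⟨Matrix.diagonal t, ?_, fun a b => hext.cyc.order _, ?_⟩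
  · intro a b
    by_cases h : a = b
    · subst h
      rw [Matrix.diagonal_apply_eq]
      fin_cases a
      · exact hθ
      · exact hθ'
    · rw [Matrix.diagonal_apply_ne _ h, map_zero]
      exact zero_le_one
  · rw [Matrix.det_fin_two, mPser_diag_apply820, mPser_diag_apply820, mPser_diag_apply820,
      mPser_diag_apply820]
    have ht0 : t 0 = θ := rfl
    have ht1 : t 1 = θ' := rfl
    rw [ht0, ht1, ← hB00, ← hB10]
    have e : B00 * ∑ m ∈ Finset.range l, mPN820 s U m 1 1 * (s ^ m) θ'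
        - (∑ m ∈ Finset.range l, mPN820 s U m 0 1 * (s ^ m) θ') * B10
        = ∑ m ∈ Finset.range l,
            (B00 * mPN820 s U m 1 1 - B10 * mPN820 s U m 0 1) * (s ^ m) θ' := by
      rw [Finset.mul_sum, Finset.sum_mul, ← Finset.sum_sub_distrib]
      refine Finset.sum_congr rfl fun m _ => ?_
      ring
    rw [e]
    exact hθ'1

end Unr

/-! ## The leaf -/

/-- **LEAF T6.13.3b.5** `H865.H90rC865`. -/
theorem h90rC820 : H90rC865 := by
  intro k k' _ _ _ _ q l i s hU ϖ a r u M hϖ hu hM hN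
  obtain ⟨hk, hk', hext, hl⟩ := hU
  have huI := (inU_zero_iff820 u).1 hu
  rcases Nat.eq_zero_or_pos r with hr | hr
  · -- `r = 0`
    subst hr
    refine ⟨1, 1, (u : Matrix (Fin 2) (Fin 2) k') - 1, ?_, map_one _, ?_, ?_⟩
    · rw [inU_zero_iff820]
      exact ⟨by simpa using isIntM_one820, by simpa using isIntM_one820⟩
    · exact isIntM_sub820 huI.1 isIntM_one820
    · simp
  -- `r ≥ 1`
  have hiϖ : Valued.v (i ϖ ^ r) < 1 := by
    rw [map_pow, val_i220 hext, hϖ, ← WithZero.exp_nsmul, ← WithZero.exp_zero,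
      WithZero.exp_lt_exp]
    have e : r • (-1 : ℤ) = -(r : ℤ) := by simp
    rw [e]
    omega
  have hdetu : Valued.v (u : Matrix (Fin 2) (Fin 2) k').det = 1 := by
    have h1 := val_det_le820 huI.1
    have h2 := val_det_le820 huI.2
    have hmul : (u : Matrix (Fin 2) (Fin 2) k').det
        * ((u⁻¹ : GL (Fin 2) k') : Matrix (Fin 2) (Fin 2) k').det = 1 := by
      rw [← Matrix.det_mul, ← Matrix.GeneralLinearGroup.coe_mul, mul_inv_cancel]
      simp
    have hv := congrArg (Valued.v : k' → Γ₀) hmul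
    rw [map_mul, map_one] at hv
    apply le_antisymm h1
    calc (1 : Γ₀) = Valued.v (u : Matrix (Fin 2) (Fin 2) k').det
          * Valued.v ((u⁻¹ : GL (Fin 2) k') : Matrix (Fin 2) (Fin 2) k').det := hv.symm
      _ ≤ Valued.v (u : Matrix (Fin 2) (Fin 2) k').det := mul_le_of_le_one_right' h2
  have hNP : mPN820 s (u : Matrix (Fin 2) (Fin 2) k') l
      = i a • (1 : Matrix (Fin 2) (Fin 2) k') + i ϖ ^ r • M := by
    rw [← coe_twNorm820]; exact hN
  -- `a` is a unit
  have ha : Valued.v a = 1 := by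
    have hPint := isIntM_mPN820 hext huI.1 l
    have hPdet := val_det_mPN820 hext hdetu l
    have h00 : i a = mPN820 s (u : Matrix (Fin 2) (Fin 2) k') l 0 0 - i ϖ ^ r * M 0 0 := by
      rw [hNP]; simp
    have hale : Valued.v (i a) ≤ 1 := by
      rw [h00]
      refine (Valued.v.map_sub _ _).trans (max_le (hPint 0 0) ?_)
      rw [map_mul]
      exact mul_le_one' hiϖ.le (hM 0 0)
    rw [← val_i220 hext]
    apply le_antisymm hale
    by_contra hlt
    rw [not_le] at hlt
    -- all entries of `N u` are non-units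
    have hent : ∀ b c, Valued.v (mPN820 s (u : Matrix (Fin 2) (Fin 2) k') l b c) < 1 := by
      intro b c
      rw [hNP]
      simp only [Matrix.add_apply, Matrix.smul_apply, smul_eq_mul]
      refine lt_of_le_of_lt (Valued.v.map_add _ _) (max_lt ?_ ?_)
      · rw [map_mul]
        calc Valued.v (i a) * Valued.v ((1 : Matrix (Fin 2) (Fin 2) k') b c)
            ≤ Valued.v (i a) * 1 := mul_le_mul_right (isIntM_one820 b c) _
          _ < 1 := by rw [mul_one]; exact hlt
      · rw [map_mul]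
        calc Valued.v (i ϖ ^ r) * Valued.v (M b c) ≤ Valued.v (i ϖ ^ r) * 1 :=
              mul_le_mul_right (hM b c) _
          _ < 1 := by rw [mul_one]; exact hiϖ
    have hdlt : Valued.v (mPN820 s (u : Matrix (Fin 2) (Fin 2) k') l).det < 1 := by
      rw [Matrix.det_fin_two]
      refine lt_of_le_of_lt (Valued.v.map_sub _ _) (max_lt ?_ ?_)
      · rw [map_mul]
        calc Valued.v (mPN820 s (u : Matrix (Fin 2) (Fin 2) k') l 0 0)
              * Valued.v (mPN820 s (u : Matrix (Fin 2) (Fin 2) k') l 1 1)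
            ≤ Valued.v (mPN820 s (u : Matrix (Fin 2) (Fin 2) k') l 0 0) * 1 :=
              mul_le_mul_right (hent 1 1).le _
          _ < 1 := by rw [mul_one]; exact hent 0 0
      · rw [map_mul]
        calc Valued.v (mPN820 s (u : Matrix (Fin 2) (Fin 2) k') l 0 1)
              * Valued.v (mPN820 s (u : Matrix (Fin 2) (Fin 2) k') l 1 0)
            ≤ Valued.v (mPN820 s (u : Matrix (Fin 2) (Fin 2) k') l 0 1) * 1 :=
              mul_le_mul_right (hent 1 0).le _
          _ < 1 := by rw [mul_one]; exact hent 0 1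
    rw [hPdet] at hdlt
    exact lt_irrefl _ hdlt
  -- the unit `c₀` of norm `a`
  obtain ⟨c₀, hc₀, hNc₀⟩ := norm_units_surj220 hk hk' hext hl a ha
  have hc₀0 : c₀ ≠ 0 := by
    intro h0; rw [h0, map_zero] at hc₀; exact zero_ne_one hc₀
  have hia : Valued.v (i a) = 1 := by rw [val_i220 hext, ha]
  have hia0 : i a ≠ 0 := by
    intro h0; rw [h0, map_zero] at hia; exact zero_ne_one hia
  have hc₀inv : Valued.v c₀⁻¹ = 1 := by rw [map_inv₀, hc₀, inv_one]
  -- `U₁ = c₀⁻¹ u`
  set U₁ : Matrix (Fin 2) (Fin 2) k' := c₀⁻¹ • (u : Matrix (Fin 2) (Fin 2) k') with hU₁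
  have hU₁int : IsIntM820 U₁ := isIntM_smul820 hc₀inv.le huI.1
  have hPl : mPN820 s U₁ l = 1 + i ϖ ^ r • ((i a)⁻¹ • M) := by
    have hpn : pnm220 s l c₀⁻¹ = nm220 s l c₀⁻¹ := rfl
    rw [hU₁, mPN_smul820, hNP, hpn, nm_inv220, hNc₀, smul_add, smul_smul,
      inv_mul_cancel₀ hia0, one_smul, smul_comm]
  -- the Poincaré series
  obtain ⟨c, hc, hcfix, hdet⟩ := exists_pser_unit820 hk hk' hext hl hU₁int
  have hBint := isIntM_mPser820 (l := l) hext hU₁int hc
  obtain ⟨y, hy, hyU⟩ := exists_gl_of_det_unit820 hBint hdet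
  have hpoin := mPoincare820 s l U₁ c hcfix
  rw [hPl, add_sub_cancel_left, ← hy] at hpoin
  refine ⟨y, c₀, ((y⁻¹ : GL (Fin 2) k') : Matrix (Fin 2) (Fin 2) k') * ((i a)⁻¹ • M) * c, hyU,
    hc₀, ?_, ?_⟩
  · exact isIntM_mul820 (isIntM_mul820 ((inU_zero_iff820 y).1 hyU).2
      (isIntM_smul820 (by rw [map_inv₀, hia, inv_one]) hM)) hc
  · rw [Matrix.GeneralLinearGroup.coe_mul, Matrix.GeneralLinearGroup.coe_mul, coe_glAut820]
    have hu_eq : (u : Matrix (Fin 2) (Fin 2) k') = c₀ • U₁ := by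
      rw [hU₁, smul_smul, mul_inv_cancel₀ hc₀0, one_smul]
    have hyinv : ((y⁻¹ : GL (Fin 2) k') : Matrix (Fin 2) (Fin 2) k')
        * (y : Matrix (Fin 2) (Fin 2) k') = 1 := by
      rw [← Matrix.GeneralLinearGroup.coe_mul, inv_mul_cancel]
      rfl
    rw [hu_eq, mul_assoc, smul_mul_assoc, hpoin, mul_smul_comm, mul_add, hyinv, smul_mul_assoc,
      mul_smul_comm, mul_assoc]

end Fermat.Agent.LT.T6.H820

end
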