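import Fermat.Agent.LT.T6.H634.EllCut
import Fermat.Agent.LT.T6.H569.IwaHomeoR

/-!
# Row LT, tower T6, station T6.20e: the measure of the real Iwasawa unit box (helper820)

OFF-MAIN.  ASSET for `cStar634` (helper634, `EllCut.lean`): if `μ|_{det > 0} = c • (iwaR)_* iwaMR`
(the Iwasawa formula `H189.IwasawaRC` with constant `c`), then `μ (boxR634) = c * 2π`.
-/

set_option autoImplicit false

open MeasureTheory
open scoped Matrix ENNReal

noncomputable section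

namespace Fermat.Agent.LT.T6.H820

open Fermat.Agent.LT.T6 Fermat.Agent.LT.T6.H189 Fermat.Agent.LT.T6.H634 Fermat.Agent.LT.T6.H569

/-- `k_θ` is the rotation of the point `e^{iθ}` of the circle. -/
theorem rotR_eq_rotZ820 (θ : ℝ) : rotR θ = rotZ (Circle.exp θ) := by
  apply Units.ext
  show (rotR θ : Matrix (Fin 2) (Fin 2) ℝ) = (rotZ (Circle.exp θ) : Matrix (Fin 2) (Fin 2) ℝ)
  rw [rotZ_val569]
  have hre : ((Circle.exp θ : Circle) : ℂ).re = Real.cos θ := by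
    rw [Circle.coe_exp]
    exact Complex.exp_ofReal_mul_I_re θ
  have him : ((Circle.exp θ : Circle) : ℂ).im = Real.sin θ := by
    rw [Circle.coe_exp]
    exact Complex.exp_ofReal_mul_I_im θ
  rw [hre, him]
  rfl

theorem iwaR_eq_jR820 (p : ℝ × ℝ × ℝ × ℝ) :
    iwaR p = jR (p.1, p.2.1, p.2.2.1, Circle.exp p.2.2.2) := by
  unfold iwaR jR
  rw [rotR_eq_rotZ820]

/-- `θ ↦ e^{iθ}` is injective on `(0, 2π]`. -/
theorem circle_exp_injOn820 : Set.InjOn (fun θ : ℝ => Circle.exp θ) (Set.Ioc 0 (2 * Real.pi)) := by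
  intro x hx y hy hxy
  have hxy' : Circle.exp x = Circle.exp y := hxy
  rw [Circle.exp_eq_exp] at hxy'
  obtain ⟨m, hm⟩ := hxy'
  have hpi := Real.pi_pos
  have h1 : (m : ℝ) * (2 * Real.pi) < 2 * Real.pi := by
    have : x - y < 2 * Real.pi := by linarith [hx.2, hy.1]
    linarith
  have h2 : -(2 * Real.pi) < (m : ℝ) * (2 * Real.pi) := by
    have : -(2 * Real.pi) < x - y := by linarith [hx.1, hy.2]
    linarith
  have h3 : (m : ℝ) < 1 := by
    by_contra h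
    have : (1 : ℝ) ≤ m := not_lt.mp h
    nlinarith
  have h4 : (-1 : ℝ) < m := by
    by_contra h
    have : (m : ℝ) ≤ -1 := not_lt.mp h
    nlinarith
  have h5 : m = 0 := by
    have h3' : m < 1 := by exact_mod_cast h3
    have h4' : -1 < m := by exact_mod_cast h4
    omega
  rw [h5] at hm
  simpa using hm

/-- `θ ↦ e^{iθ}` maps `(0, 2π]` onto the circle. -/
theorem circle_exp_surjOn820 (z : Circle) : ∃ θ ∈ Set.Ioc 0 (2 * Real.pi), Circle.exp θ = z := by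
  have hpi := Real.pi_pos
  have harg := Complex.arg_mem_Ioc (z : ℂ)
  have hz : Circle.exp (Complex.arg (z : ℂ)) = z := Circle.exp_arg z
  by_cases h : 0 < Complex.arg (z : ℂ)
  · exact ⟨Complex.arg (z : ℂ), ⟨h, by linarith [harg.2]⟩, hz⟩
  · refine ⟨Complex.arg (z : ℂ) + 2 * Real.pi, ⟨by linarith [harg.1], by linarith [not_lt.mp h]⟩, ?_⟩
    rw [Circle.exp_add, Circle.exp_two_pi, mul_one, hz]

/-- The parameter box. -/
def pBoxR820 : Set (ℝ × ℝ × ℝ × ℝ) :=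
  Set.Icc (0 : ℝ) 1 ×ˢ Set.Icc (0 : ℝ) 1 ×ˢ Set.Icc (0 : ℝ) 1 ×ˢ Set.Ioc (0 : ℝ) (2 * Real.pi)

theorem boxR_eq820 : boxR634 = iwaR '' pBoxR820 := rfl

/-- The real box is the image of a compact set under `jR`. -/
theorem boxR_eq_jR820 :
    boxR634 = jR '' (Set.Icc (0 : ℝ) 1 ×ˢ Set.Icc (0 : ℝ) 1 ×ˢ Set.Icc (0 : ℝ) 1 ×ˢ
      (Set.univ : Set Circle)) := by
  rw [boxR_eq820]
  ext g
  constructor
  · rintro ⟨p, hp, rfl⟩
    obtain ⟨h1, h2, h3, -⟩ := hp
    exact ⟨(p.1, p.2.1, p.2.2.1, Circle.exp p.2.2.2), ⟨h1, h2, h3, Set.mem_univ _⟩,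
      (iwaR_eq_jR820 p).symm⟩
  · rintro ⟨q, hq, rfl⟩
    obtain ⟨h1, h2, h3, -⟩ := hq
    obtain ⟨θ, hθ, hz⟩ := circle_exp_surjOn820 q.2.2.2
    refine ⟨(q.1, q.2.1, q.2.2.1, θ), ⟨h1, h2, h3, hθ⟩, ?_⟩
    rw [iwaR_eq_jR820]
    simp only
    rw [hz]

theorem isCompact_boxR820 : IsCompact boxR634 := by
  rw [boxR_eq_jR820]
  exact ((isCompact_Icc.prod (isCompact_Icc.prod (isCompact_Icc.prod isCompact_univ)))).image
    continuous_jR569

theorem boxR_subset_posR820 : boxR634 ⊆ posR := by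
  rw [boxR_eq_jR820]
  rintro g ⟨q, -, rfl⟩
  show 0 < ((jR q : GL (Fin 2) ℝ) : Matrix (Fin 2) (Fin 2) ℝ).det
  rw [jR_det569]
  exact mul_pos (Real.exp_pos _) (Real.exp_pos _)

/-- The preimage of the box, inside the domain of the angle, is the parameter box. -/
theorem preimage_boxR820 (p : ℝ × ℝ × ℝ × ℝ) (hp : p.2.2.2 ∈ Set.Ioc (0 : ℝ) (2 * Real.pi))
    (h : iwaR p ∈ boxR634) : p ∈ pBoxR820 := by
  rw [boxR_eq820] at h
  obtain ⟨q, hq, hqp⟩ := h
  rw [iwaR_eq_jR820, iwaR_eq_jR820] at hqp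
  have h1 := kR_jR569.injective hqp
  simp only [Prod.mk.injEq] at h1
  obtain ⟨e1, e2, e3, e4⟩ := h1
  obtain ⟨q1, q2, q3, q4⟩ := hq
  have e5 : q.2.2.2 = p.2.2.2 := circle_exp_injOn820 q4 hp e4
  refine ⟨?_, ?_, ?_, hp⟩
  · rw [← e1]; exact q1
  · rw [← e2]; exact q2
  · rw [← e3]; exact q3

theorem continuous_iwaR820 : Continuous iwaR := by
  have h : iwaR = fun p : ℝ × ℝ × ℝ × ℝ => jR (p.1, p.2.1, p.2.2.1, Circle.exp p.2.2.2) :=
    funext iwaR_eq_jR820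
  rw [h]
  exact continuous_jR569.comp (by fun_prop)

/-- The measure of the parameter box. -/
theorem iwaMR_pBox820 : iwaMR pBoxR820 = ENNReal.ofReal (2 * Real.pi) := by
  unfold iwaMR pBoxR820 angM
  rw [Measure.prod_prod, Measure.prod_prod, Measure.prod_prod]
  rw [Real.volume_Icc, Measure.restrict_apply measurableSet_Ioc, Set.inter_self, Real.volume_Ioc]
  simp

/-- The complement of the domain of the angle is a null set. -/
theorem iwaMR_compl820 :
    iwaMR {p : ℝ × ℝ × ℝ × ℝ | p.2.2.2 ∉ Set.Ioc (0 : ℝ) (2 * Real.pi)} = 0 := by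
  have hset : {p : ℝ × ℝ × ℝ × ℝ | p.2.2.2 ∉ Set.Ioc (0 : ℝ) (2 * Real.pi)}
      = (Set.univ : Set ℝ) ×ˢ (Set.univ : Set ℝ) ×ˢ (Set.univ : Set ℝ) ×ˢ
        (Set.Ioc (0 : ℝ) (2 * Real.pi))ᶜ := by
    ext p
    simp
  rw [hset]
  unfold iwaMR angM
  rw [Measure.prod_prod, Measure.prod_prod, Measure.prod_prod]
  rw [Measure.restrict_apply measurableSet_Ioc.compl]
  simp

/-- **The measure of the real Iwasawa unit box.** -/
theorem boxR_measure820 (μ : @Measure (GL (Fin 2) ℝ) (borel _)) (c : ℝ≥0∞)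
    (h : @Measure.restrict _ (borel _) μ posR = c • @Measure.map _ _ _ (borel _) iwaR iwaMR) :
    μ boxR634 = c * ENNReal.ofReal (2 * Real.pi) := by
  letI : MeasurableSpace (GL (Fin 2) ℝ) := borel _
  haveI : BorelSpace (GL (Fin 2) ℝ) := ⟨rfl⟩
  have hmeas : MeasurableSet boxR634 := isCompact_boxR820.isClosed.measurableSet
  have h1 : μ boxR634 = (μ.restrict posR) boxR634 :=
    (Measure.restrict_eq_self μ boxR_subset_posR820).symm
  rw [h1, h]
  rw [Measure.smul_apply, smul_eq_mul]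
  congr 1
  rw [Measure.map_apply continuous_iwaR820.measurable hmeas]
  -- the preimage is the parameter box up to a null set
  apply le_antisymm
  · calc iwaMR (iwaR ⁻¹' boxR634)
        ≤ iwaMR (pBoxR820 ∪ {p : ℝ × ℝ × ℝ × ℝ | p.2.2.2 ∉ Set.Ioc (0 : ℝ) (2 * Real.pi)}) := by
          apply measure_mono
          intro p hp
          by_cases hθ : p.2.2.2 ∈ Set.Ioc (0 : ℝ) (2 * Real.pi)
          · exact Or.inl (preimage_boxR820 p hθ hp)
          · exact Or.inr hθ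
      _ ≤ iwaMR pBoxR820 + iwaMR {p : ℝ × ℝ × ℝ × ℝ | p.2.2.2 ∉ Set.Ioc (0 : ℝ) (2 * Real.pi)} :=
          measure_union_le _ _
      _ = ENNReal.ofReal (2 * Real.pi) := by
          rw [iwaMR_pBox820, iwaMR_compl820, add_zero]
  · rw [← iwaMR_pBox820]
    apply measure_mono
    intro p hp
    exact ⟨p, hp, rfl⟩

end Fermat.Agent.LT.T6.H820

end
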