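import Fermat.Agent.LT.T6.H634.EllCut
import Fermat.Agent.LT.T6.H905.IwaHomeoC

/-!
# Row LT, tower T6, station T6.20e: the measure of the complex Iwasawa unit box (helper820)

OFF-MAIN.  ASSET for `cStar634` (helper634, `EllCut.lean`): if `μ' = c • (iwaC)_* (iwaMC κ)`
(the Iwasawa formula `H189.IwasawaCC` with constant `c`, `κ` the Haar probability measure of
`U(2)`), then `μ' (boxC634) = c * π`.
-/

set_option autoImplicit false

open MeasureTheory
open scoped Matrix ENNReal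

noncomputable section

namespace Fermat.Agent.LT.T6.H820

open Fermat.Agent.LT.T6 Fermat.Agent.LT.T6.H189 Fermat.Agent.LT.T6.H634 Fermat.Agent.LT.T6.H905

/-- The parameter box. -/
def pBoxC820 : Set (ℝ × ℝ × ℂ × GL (Fin 2) ℂ) :=
  Set.Icc (0 : ℝ) 1 ×ˢ Set.Icc (0 : ℝ) 1 ×ˢ Metric.closedBall (0 : ℂ) 1 ×ˢ U2

theorem boxC_eq820 : boxC634 = iwaC '' pBoxC820 := rfl

theorem iwaC_eq820 (p : ℝ × ℝ × ℂ × GL (Fin 2) ℂ) :
    iwaC p = bor905 (p.1, p.2.1, p.2.2.1) * p.2.2.2 := rfl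

/-- The complex box in the inverse coordinates. -/
theorem boxC_eq_coord820 :
    boxC634 = {g : GL (Fin 2) ℂ | iwU1_905 g ∈ Set.Icc (0 : ℝ) 1 ∧
      iwU2_905 g ∈ Set.Icc (0 : ℝ) 1 ∧ iwW905 g ∈ Metric.closedBall (0 : ℂ) 1} := by
  rw [boxC_eq820]
  ext g
  constructor
  · rintro ⟨p, ⟨h1, h2, h3, h4⟩, rfl⟩
    have hk : p.2.2.2 ∈ U2sub := h4
    rw [iwaC_eq820]
    show iwU1_905 _ ∈ _ ∧ iwU2_905 _ ∈ _ ∧ iwW905 _ ∈ _
    rw [iwU1_bor_mul905 _ hk, iwU2_bor_mul905 _ hk, iwW_bor_mul905 _ hk]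
    exact ⟨h1, h2, h3⟩
  · rintro ⟨h1, h2, h3⟩
    refine ⟨(iwU1_905 g, iwU2_905 g, iwW905 g, iwK905 g), ⟨h1, h2, h3, iwK_mem905 g⟩, ?_⟩
    rw [iwaC_eq820]
    show bor905 (iwU1_905 g, iwU2_905 g, iwW905 g) * ((iwB905 g)⁻¹ * g) = g
    exact mul_inv_cancel_left (iwB905 g) g

theorem isClosed_boxC820 : IsClosed boxC634 := by
  rw [boxC_eq_coord820]
  exact (isClosed_Icc.preimage continuous_iwU1_905).inter
    ((isClosed_Icc.preimage continuous_iwU2_905).inter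
      (Metric.isClosed_closedBall.preimage continuous_iwW905))

/-- The preimage of the box, inside `U(2)`, is the parameter box. -/
theorem preimage_boxC820 (p : ℝ × ℝ × ℂ × GL (Fin 2) ℂ) (hp : p.2.2.2 ∈ U2)
    (h : iwaC p ∈ boxC634) : p ∈ pBoxC820 := by
  rw [boxC_eq_coord820, iwaC_eq820] at h
  have hk : p.2.2.2 ∈ U2sub := hp
  obtain ⟨h1, h2, h3⟩ := h
  rw [iwU1_bor_mul905 _ hk] at h1
  rw [iwU2_bor_mul905 _ hk] at h2
  rw [iwW_bor_mul905 _ hk] at h3
  exact ⟨h1, h2, h3, hp⟩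

theorem continuous_iwaC820 : Continuous iwaC := by
  have h : iwaC = fun p : ℝ × ℝ × ℂ × GL (Fin 2) ℂ =>
      bor905 (p.1, p.2.1, p.2.2.1) * p.2.2.2 := funext iwaC_eq820
  rw [h]
  refine (continuous_bor905.comp ?_).mul ?_
  · exact continuous_fst.prodMk ((continuous_fst.comp continuous_snd).prodMk
      (continuous_fst.comp (continuous_snd.comp continuous_snd)))
  · exact continuous_snd.comp (continuous_snd.comp continuous_snd)

/-- The Haar probability measure of `U(2)` has mass `1` on `U(2)`. -/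
theorem u2Haar_U2_820 (κ : @Measure (GL (Fin 2) ℂ) (borel _)) (hκ : IsU2Haar κ) : κ U2 = 1 := by
  apply le_antisymm
  · rw [← hκ.prob]
    exact measure_mono (Set.subset_univ _)
  · calc (1 : ℝ≥0∞) = κ Set.univ := hκ.prob.symm
      _ = κ (U2 ∪ U2ᶜ) := by rw [Set.union_compl_self]
      _ ≤ κ U2 + κ U2ᶜ := measure_union_le _ _
      _ = κ U2 := by rw [hκ.supp, add_zero]

/-- **The measure of the complex Iwasawa unit box.** -/
theorem boxC_measure820 (κ μ' : @Measure (GL (Fin 2) ℂ) (borel _)) (hκ : IsU2Haar κ) (c : ℝ≥0∞)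
    (h : μ' = c • @Measure.map _ _
        (@Prod.instMeasurableSpace _ _ _ (@Prod.instMeasurableSpace _ _ _
          (@Prod.instMeasurableSpace _ _ _ (borel _)))) (borel _) iwaC (iwaMC κ)) :
    μ' boxC634 = c * ENNReal.ofReal Real.pi := by
  letI : MeasurableSpace (GL (Fin 2) ℂ) := borel _
  haveI : BorelSpace (GL (Fin 2) ℂ) := ⟨rfl⟩
  haveI : IsFiniteMeasure κ := ⟨by rw [hκ.prob]; exact ENNReal.one_lt_top⟩
  have hmeas : MeasurableSet boxC634 := isClosed_boxC820.measurableSet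
  have hbox : iwaMC κ pBoxC820 = ENNReal.ofReal Real.pi := by
    unfold iwaMC pBoxC820
    rw [Measure.prod_prod, Measure.prod_prod, Measure.prod_prod]
    rw [Real.volume_Icc, Complex.volume_closedBall, u2Haar_U2_820 κ hκ]
    have hpi : (NNReal.pi : ℝ≥0∞) = ENNReal.ofReal Real.pi := by
      rw [ENNReal.ofReal, ← NNReal.coe_real_pi, Real.toNNReal_coe]
    simp [hpi]
  have hcompl : iwaMC κ {p : ℝ × ℝ × ℂ × GL (Fin 2) ℂ | p.2.2.2 ∉ U2} = 0 := by
    have hset : {p : ℝ × ℝ × ℂ × GL (Fin 2) ℂ | p.2.2.2 ∉ U2}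
        = (Set.univ : Set ℝ) ×ˢ (Set.univ : Set ℝ) ×ˢ (Set.univ : Set ℂ) ×ˢ U2ᶜ := by
      ext p
      simp
    rw [hset]
    unfold iwaMC
    rw [Measure.prod_prod, Measure.prod_prod, Measure.prod_prod, hκ.supp]
    simp
  rw [h, Measure.smul_apply, smul_eq_mul]
  congr 1
  rw [Measure.map_apply continuous_iwaC820.measurable hmeas]
  apply le_antisymm
  · calc iwaMC κ (iwaC ⁻¹' boxC634)
        ≤ iwaMC κ (pBoxC820 ∪ {p : ℝ × ℝ × ℂ × GL (Fin 2) ℂ | p.2.2.2 ∉ U2}) := by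
          apply measure_mono
          intro p hp
          by_cases hk : p.2.2.2 ∈ U2
          · exact Or.inl (preimage_boxC820 p hk hp)
          · exact Or.inr hk
      _ ≤ iwaMC κ pBoxC820 + iwaMC κ {p : ℝ × ℝ × ℂ × GL (Fin 2) ℂ | p.2.2.2 ∉ U2} :=
          measure_union_le _ _
      _ = ENNReal.ofReal Real.pi := by rw [hbox, hcompl, add_zero]
  · rw [← hbox]
    apply measure_mono
    intro p hp
    exact ⟨p, hp, rfl⟩

end Fermat.Agent.LT.T6.H820

end
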