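import Fermat.Agent.LT.T6.H820.BoxR
import Fermat.Agent.LT.T6.H820.BoxC

/-!
# Row LT, tower T6, station T6.20e: the value of `cStar634` (helper820)

OFF-MAIN.  ASSET + ADAPTER for the explicit route of helper634 (`EllCut.lean`).

* `cStar_eq820` : if `μ|_{det > 0} = c • (iwaR)_* iwaMR` and `μ' = c' • (iwaC)_* (iwaMC κ)`
  (`κ` the Haar probability measure of `U(2)`), then
  `cStar634 μ μ' = c'.toReal / (8 * π * c.toReal)`  (`= c_I' / (8π c_I)`).
* `cStar_pos820` : `0 < cStar634 μ μ'` if moreover `c, c' ∉ {0, ⊤}`;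
  `cStar_pos_of_iwasawa820 : IwasawaRC → U2HaarC → IwasawaCC → ∀ Haar μ μ', 0 < cStar634 μ μ'`.
* `HypIwaC820` : the hyperbolic matching in the form in which the computation produces it
  (for ALL constants `c`, `c'` of the two Iwasawa formulas, `c' / (8π c)` is a matching constant
  on `{disc > 0}`), and the PROVED adapter
  `hypExpl_of_iwa820 : IwasawaRC → U2HaarC → IwasawaCC → HypIwaC820 → HypExplC634`;
  likewise `EllIwaC820` and `ellValue_of_iwa820 : … → EllIwaC820 → EllValueC634`.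
-/

set_option autoImplicit false

open MeasureTheory
open scoped Matrix ENNReal

noncomputable section

namespace Fermat.Agent.LT.T6.H820

open Fermat.Agent.LT.T6 Fermat.Agent.LT.T6.H189 Fermat.Agent.LT.T6.H634 Fermat.Agent.LT.T6.H626

/-- **The value of `cStar634`** in terms of the constants of the two Iwasawa formulas. -/
theorem cStar_eq820 (μ : @Measure (GL (Fin 2) ℝ) (borel _))
    (κ μ' : @Measure (GL (Fin 2) ℂ) (borel _)) (hκ : IsU2Haar κ) (c c' : ℝ≥0∞)
    (hR : @Measure.restrict _ (borel _) μ posR = c • @Measure.map _ _ _ (borel _) iwaR iwaMR)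
    (hC : μ' = c' • @Measure.map _ _
        (@Prod.instMeasurableSpace _ _ _ (@Prod.instMeasurableSpace _ _ _
          (@Prod.instMeasurableSpace _ _ _ (borel _)))) (borel _) iwaC (iwaMC κ)) :
    cStar634 μ μ' = c'.toReal / (8 * Real.pi * c.toReal) := by
  unfold cStar634
  rw [boxR_measure820 μ c hR, boxC_measure820 κ μ' hκ c' hC]
  rw [ENNReal.toReal_mul, ENNReal.toReal_mul, ENNReal.toReal_ofReal Real.pi_pos.le,
    ENNReal.toReal_ofReal (by positivity)]
  have hpi : Real.pi ≠ 0 := Real.pi_ne_zero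
  by_cases hc : c.toReal = 0
  · rw [hc]
    simp
  · field_simp
    ring

/-- `cStar634` is positive. -/
theorem cStar_pos820 (μ : @Measure (GL (Fin 2) ℝ) (borel _))
    (κ μ' : @Measure (GL (Fin 2) ℂ) (borel _)) (hκ : IsU2Haar κ) (c c' : ℝ≥0∞)
    (hc0 : c ≠ 0) (hc1 : c ≠ ⊤) (hc0' : c' ≠ 0) (hc1' : c' ≠ ⊤)
    (hR : @Measure.restrict _ (borel _) μ posR = c • @Measure.map _ _ _ (borel _) iwaR iwaMR)
    (hC : μ' = c' • @Measure.map _ _
        (@Prod.instMeasurableSpace _ _ _ (@Prod.instMeasurableSpace _ _ _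
          (@Prod.instMeasurableSpace _ _ _ (borel _)))) (borel _) iwaC (iwaMC κ)) :
    0 < cStar634 μ μ' := by
  rw [cStar_eq820 μ κ μ' hκ c c' hR hC]
  have h1 : 0 < c.toReal := ENNReal.toReal_pos hc0 hc1
  have h2 : 0 < c'.toReal := ENNReal.toReal_pos hc0' hc1'
  have hpi := Real.pi_pos
  positivity

/-- `cStar634` is positive for all Haar measures, from the Iwasawa formulas of T6.23. -/
theorem cStar_pos_of_iwasawa820 (hR : IwasawaRC) (hU : U2HaarC) (hC : IwasawaCC)
    (μ : @Measure (GL (Fin 2) ℝ) (borel _)) (μ' : @Measure (GL (Fin 2) ℂ) (borel _))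
    (hμ : @Measure.IsHaarMeasure _ _ _ (borel _) μ)
    (hμ' : @Measure.IsHaarMeasure _ _ _ (borel _) μ') : 0 < cStar634 μ μ' := by
  obtain ⟨κ, hκ⟩ := hU
  obtain ⟨c, hc0, hc1, hcR⟩ := hR μ hμ
  obtain ⟨c', hc0', hc1', hcC⟩ := hC κ hκ μ' hμ'
  exact cStar_pos820 μ κ μ' hκ c c' hc0 hc1 hc0' hc1' hcR hcC

/-- **The matching with the constants of the Iwasawa formulas** on the regular elements with
`P`: for ALL constants `c`, `c'` of the two Iwasawa formulas, `c' / (8π c)` is a matching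
constant.  (This is the form in which the computation of the orbital integrals produces the
constant.) -/
def MatchIwaOn820 (P : GL (Fin 2) ℝ → Prop) : Prop :=
  ∀ (μ : @Measure (GL (Fin 2) ℝ) (borel _)) (κ μ' : @Measure (GL (Fin 2) ℂ) (borel _)),
    @Measure.IsHaarMeasure _ _ _ (borel _) μ → @Measure.IsHaarMeasure _ _ _ (borel _) μ' →
    IsU2Haar κ → ∀ c c' : ℝ≥0∞, c ≠ 0 → c ≠ ⊤ → c' ≠ 0 → c' ≠ ⊤ →
    @Measure.restrict _ (borel _) μ posR = c • @Measure.map _ _ _ (borel _) iwaR iwaMR →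
    μ' = c' • @Measure.map _ _
        (@Prod.instMeasurableSpace _ _ _ (@Prod.instMeasurableSpace _ _ _
          (@Prod.instMeasurableSpace _ _ _ (borel _)))) (borel _) iwaC (iwaMC κ) →
    IsMatchConstOn626 P μ μ' (c'.toReal / (8 * Real.pi * c.toReal))

/-- The hyperbolic matching with the constants of the Iwasawa formulas. -/
def HypIwaC820 : Prop := MatchIwaOn820 (fun γ => 0 < disc γ)

/-- The elliptic matching with the constants of the Iwasawa formulas. -/
def EllIwaC820 : Prop := MatchIwaOn820 (fun γ => disc γ < 0)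

/-- The matching with `cStar634` from the matching with the Iwasawa constants. -/
theorem matchStar_of_iwa820 (P : GL (Fin 2) ℝ → Prop) (hR : IwasawaRC) (hU : U2HaarC)
    (hC : IwasawaCC) (hM : MatchIwaOn820 P)
    (μ : @Measure (GL (Fin 2) ℝ) (borel _)) (μ' : @Measure (GL (Fin 2) ℂ) (borel _))
    (hμ : @Measure.IsHaarMeasure _ _ _ (borel _) μ)
    (hμ' : @Measure.IsHaarMeasure _ _ _ (borel _) μ') :
    IsMatchConstOn626 P μ μ' (cStar634 μ μ') := by
  obtain ⟨κ, hκ⟩ := hU
  obtain ⟨c, hc0, hc1, hcR⟩ := hR μ hμ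
  obtain ⟨c', hc0', hc1', hcC⟩ := hC κ hκ μ' hμ'
  rw [cStar_eq820 μ κ μ' hκ c c' hcR hcC]
  exact hM μ κ μ' hμ hμ' hκ c c' hc0 hc1 hc0' hc1' hcR hcC

/-- **ADAPTER**: `HypExplC634` (VERBATIM) from the hyperbolic matching with the Iwasawa
constants. -/
theorem hypExpl_of_iwa820 (hR : IwasawaRC) (hU : U2HaarC) (hC : IwasawaCC) (hM : HypIwaC820) :
    HypExplC634 :=
  fun μ μ' hμ hμ' =>
    ⟨cStar_pos_of_iwasawa820 hR hU hC μ μ' hμ hμ',
      matchStar_of_iwa820 _ hR hU hC hM μ μ' hμ hμ'⟩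

/-- **ADAPTER**: `EllValueC634` (VERBATIM) from the elliptic matching with the Iwasawa
constants. -/
theorem ellValue_of_iwa820 (hR : IwasawaRC) (hU : U2HaarC) (hC : IwasawaCC) (hM : EllIwaC820) :
    EllValueC634 :=
  fun μ μ' hμ hμ' => matchStar_of_iwa820 _ hR hU hC hM μ μ' hμ hμ'

/-- **`GeoMatchC626` (VERBATIM)** from the two matchings with the Iwasawa constants. -/
theorem geoMatch_of_iwa820 (hR : IwasawaRC) (hU : U2HaarC) (hC : IwasawaCC) (hH : HypIwaC820)
    (hE : EllIwaC820) : GeoMatchC626 :=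
  geoMatch_of_expl634 (hypExpl_of_iwa820 hR hU hC hH) (ellValue_of_iwa820 hR hU hC hE)

end Fermat.Agent.LT.T6.H820

end
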