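import Fermat.Agent.LT.T6.H75.EllTwSpec

/-!
# Row LT, tower T6, leaf T6.20e.2e.4 `H75.TorCommC75` (helper820)

OFF-MAIN.  If `δ δ̄ = γ` with `γ ∈ GL₂(ℝ)` elliptic, every `t` in the centraliser of `γ` in
`GL₂(ℝ)` commutes with `δ`.

`δ δ̄ = γ` real gives `δ̄ δ = γ`, so `δ` commutes with `γ`; `γ₀₁ ≠ 0` (`disc γ < 0`), and two
matrices commuting with a `2 × 2` matrix `G` with `G₀₁ ≠ 0` commute (`comm_of_comm820`, any field).
-/

set_option autoImplicit false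

open scoped Matrix

noncomputable section

namespace Fermat.Agent.LT.T6.H820

open Fermat.Agent.LT.T6

/-- Two matrices commuting with a `2 × 2` matrix `G`, `G₀₁ ≠ 0`, commute (any field). -/
theorem comm_of_comm820 {F : Type*} [Field F] (G T D : Matrix (Fin 2) (Fin 2) F)
    (hb : G 0 1 ≠ 0) (hT : T * G = G * T) (hD : D * G = G * D) : T * D = D * T := by
  have eT00 := congrFun (congrFun hT 0) 0
  have eT01 := congrFun (congrFun hT 0) 1
  have eD00 := congrFun (congrFun hD 0) 0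
  have eD01 := congrFun (congrFun hD 0) 1
  simp only [Matrix.mul_apply, Fin.sum_univ_two] at eT00 eT01 eD00 eD01
  ext i j
  fin_cases i <;> fin_cases j
  · simp only [Matrix.mul_apply, Fin.sum_univ_two, Fin.zero_eta]
    apply mul_left_cancel₀ hb
    linear_combination (D 0 1) * eT00 - (T 0 1) * eD00
  · simp only [Matrix.mul_apply, Fin.sum_univ_two, Fin.zero_eta, Fin.mk_one]
    apply mul_left_cancel₀ hb
    linear_combination (D 0 1) * eT01 - (T 0 1) * eD01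
  · simp only [Matrix.mul_apply, Fin.sum_univ_two, Fin.zero_eta, Fin.mk_one]
    apply mul_left_cancel₀ hb
    apply mul_left_cancel₀ hb
    linear_combination (-(G 0 1 * (D 0 0 - D 1 1))) * eT00 - (D 0 1 * G 1 0) * eT01
      + (G 0 1 * (T 0 0 - T 1 1)) * eD00 + (T 0 1 * G 1 0) * eD01
  · simp only [Matrix.mul_apply, Fin.sum_univ_two, Fin.mk_one]
    apply mul_left_cancel₀ hb
    linear_combination (T 0 1) * eD00 - (D 0 1) * eT00

/-- The matrix of the image in `GL₂(ℂ)` of a real matrix. -/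
theorem coe_mapC820 (g : GL (Fin 2) ℝ) :
    ((Matrix.GeneralLinearGroup.map (algebraMap ℝ ℂ) g : GL (Fin 2) ℂ) :
        Matrix (Fin 2) (Fin 2) ℂ)
      = (g : Matrix (Fin 2) (Fin 2) ℝ).map (algebraMap ℝ ℂ) := rfl

/-- The complex conjugation fixes the image of `GL₂(ℝ)`. -/
theorem glAut_mapC820 (g : GL (Fin 2) ℝ) :
    glAut (starRingAut : ℂ ≃+* ℂ) (Matrix.GeneralLinearGroup.map (algebraMap ℝ ℂ) g)
      = Matrix.GeneralLinearGroup.map (algebraMap ℝ ℂ) g := by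
  apply Units.ext
  ext i j
  show (starRingAut : ℂ ≃+* ℂ) ((algebraMap ℝ ℂ) ((g : Matrix (Fin 2) (Fin 2) ℝ) i j))
    = (algebraMap ℝ ℂ) ((g : Matrix (Fin 2) (Fin 2) ℝ) i j)
  simp

/-- The complex conjugation is an involution of `GL₂(ℂ)`. -/
theorem glAut_glAut820 (x : GL (Fin 2) ℂ) :
    glAut (starRingAut : ℂ ≃+* ℂ) (glAut (starRingAut : ℂ ≃+* ℂ) x) = x := by
  apply Units.ext
  ext i j
  show (starRingAut : ℂ ≃+* ℂ) ((starRingAut : ℂ ≃+* ℂ) ((x : Matrix (Fin 2) (Fin 2) ℂ) i j))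
    = (x : Matrix (Fin 2) (Fin 2) ℂ) i j
  simp

theorem twNorm_two820 (δ : GL (Fin 2) ℂ) :
    twNorm (starRingAut : ℂ ≃+* ℂ) 2 δ = δ * glAut (starRingAut : ℂ ≃+* ℂ) δ := by
  unfold twNorm
  simp [twN]

/-- `disc γ < 0` forces `γ₀₁ ≠ 0`. -/
theorem entry_ne_zero_of_disc_neg820 (γ : GL (Fin 2) ℝ) (h : disc γ < 0) :
    (γ : Matrix (Fin 2) (Fin 2) ℝ) 0 1 ≠ 0 := by
  intro hb
  unfold disc at h
  rw [Matrix.trace_fin_two, Matrix.det_fin_two, hb] at h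
  nlinarith [sq_nonneg ((γ : Matrix (Fin 2) (Fin 2) ℝ) 0 0 - (γ : Matrix (Fin 2) (Fin 2) ℝ) 1 1)]

/-- **Leaf T6.20e.2e.4 `TorCommC75`.** -/
theorem torCommC820 : Fermat.Agent.LT.T6.H75.TorCommC75 := by
  intro γ hγ δ hδ t
  set Γ : GL (Fin 2) ℂ := Matrix.GeneralLinearGroup.map (algebraMap ℝ ℂ) γ with hΓ
  set T : GL (Fin 2) ℂ := Matrix.GeneralLinearGroup.map (algebraMap ℝ ℂ) (t : GL (Fin 2) ℝ)
    with hT
  rw [twNorm_two820] at hδ
  -- `δ̄ δ = γ`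
  have h1 : glAut (starRingAut : ℂ ≃+* ℂ) δ * δ = Γ := by
    have := congrArg (glAut (starRingAut : ℂ ≃+* ℂ)) hδ
    rw [map_mul, glAut_glAut820, hΓ, glAut_mapC820] at this
    exact this
  -- `δ` commutes with `γ`
  have hδΓ : δ * Γ = Γ * δ := by
    calc δ * Γ = δ * (glAut (starRingAut : ℂ ≃+* ℂ) δ * δ) := by rw [h1]
      _ = (δ * glAut (starRingAut : ℂ ≃+* ℂ) δ) * δ := by rw [mul_assoc]
      _ = Γ * δ := by rw [hδ]
  -- `t` commutes with `γ`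
  have ht : (t : GL (Fin 2) ℝ)⁻¹ * γ * (t : GL (Fin 2) ℝ) = γ := t.2
  have htγ : (t : GL (Fin 2) ℝ) * γ = γ * (t : GL (Fin 2) ℝ) := by
    calc (t : GL (Fin 2) ℝ) * γ
        = (t : GL (Fin 2) ℝ) * ((t : GL (Fin 2) ℝ)⁻¹ * γ * (t : GL (Fin 2) ℝ)) := by rw [ht]
      _ = γ * (t : GL (Fin 2) ℝ) := by simp [mul_assoc]
  have hTΓ : T * Γ = Γ * T := by
    rw [hT, hΓ, ← map_mul, ← map_mul, htγ]
  -- the entry
  have hb : (Γ : Matrix (Fin 2) (Fin 2) ℂ) 0 1 ≠ 0 := by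
    rw [hΓ, coe_mapC820]
    show (algebraMap ℝ ℂ) ((γ : Matrix (Fin 2) (Fin 2) ℝ) 0 1) ≠ 0
    have := entry_ne_zero_of_disc_neg820 γ hγ
    simpa using this
  apply Units.ext
  rw [Matrix.GeneralLinearGroup.coe_mul, Matrix.GeneralLinearGroup.coe_mul]
  refine comm_of_comm820 (Γ : Matrix (Fin 2) (Fin 2) ℂ) _ _ hb ?_ ?_
  · rw [← Matrix.GeneralLinearGroup.coe_mul, ← Matrix.GeneralLinearGroup.coe_mul, hTΓ]
  · rw [← Matrix.GeneralLinearGroup.coe_mul, ← Matrix.GeneralLinearGroup.coe_mul, hδΓ]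

end Fermat.Agent.LT.T6.H820

end
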