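import Fermat.Agent.LT.T6.H820.PowSpec

/-!
# Row LT, tower T6, leaf T6.18g3 `H783.PowC783`: the PROVED glue (seat helper820, OFF-MAIN)

    powC_of_leaves820 : T6.OrbSumExC → H783.LvlC783 → PowRootC820 → H783.PowC783
    powC_of_all820 : T6.OrbSumExC → H783.LvlC783 → RootFnC820 → PowRootFromFnC820 → H783.PowC783

See the header of `PowSpec.lean`.
-/

set_option autoImplicit false

open scoped Matrix

noncomputable section

namespace Fermat.Agent.LT.T6.H820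

open Fermat.Agent.LT.T6 Fermat.Agent.LT.T6.H783

section Algebra

variable {k : Type} [Field k]

theorem glAut_refl820 (x : GL (Fin 2) k) : glAut (RingEquiv.refl k) x = x := by
  apply Units.ext
  ext a b
  simp [glAut]

theorem trace_conj820 (x y : GL (Fin 2) k) :
    ((x⁻¹ * y * x : GL (Fin 2) k) : Matrix (Fin 2) (Fin 2) k).trace
      = (y : Matrix (Fin 2) (Fin 2) k).trace := by
  have e : ((x⁻¹ * y * x : GL (Fin 2) k) : Matrix (Fin 2) (Fin 2) k)
      = (x⁻¹ : GL (Fin 2) k).val * (y.val * x.val) := by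
    simp [mul_assoc]
  rw [e, Matrix.trace_mul_comm, mul_assoc]
  have h2 : x.val * (x⁻¹ : GL (Fin 2) k).val = 1 := by
    rw [← Units.val_mul]; simp
  rw [h2, mul_one]

theorem det_conj820 (x y : GL (Fin 2) k) :
    ((x⁻¹ * y * x : GL (Fin 2) k) : Matrix (Fin 2) (Fin 2) k).det
      = (y : Matrix (Fin 2) (Fin 2) k).det := by
  have e : ((x⁻¹ * y * x : GL (Fin 2) k) : Matrix (Fin 2) (Fin 2) k)
      = (x⁻¹ : GL (Fin 2) k).val * y.val * x.val := by
    simp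
  rw [e, Matrix.det_mul, Matrix.det_mul]
  have h2 : (x⁻¹ : GL (Fin 2) k).val.det * x.val.det = 1 := by
    rw [← Matrix.det_mul, ← Units.val_mul]; simp
  calc (x⁻¹ : GL (Fin 2) k).val.det * y.val.det * x.val.det
      = ((x⁻¹ : GL (Fin 2) k).val.det * x.val.det) * y.val.det := by ring
    _ = y.val.det := by rw [h2, one_mul]

theorem isReg_conj820 {x y : GL (Fin 2) k} (hy : IsReg y) : IsReg (x⁻¹ * y * x) := by
  unfold IsReg disc at hy ⊢
  rw [trace_conj820, det_conj820]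
  exact hy

theorem inChiBall_conj820 [Valued k Γ₀] {t d : k} {N : ℤ} {x y : GL (Fin 2) k}
    (hy : InChiBall783 t d N y) : InChiBall783 t d N (x⁻¹ * y * x) := by
  unfold InChiBall783 at hy ⊢
  rw [trace_conj820, det_conj820]
  exact hy

theorem conj_pow820 (x y : GL (Fin 2) k) (l : ℕ) : (x⁻¹ * y * x) ^ l = x⁻¹ * y ^ l * x := by
  induction l with
  | zero => simp
  | succ n ih => rw [pow_succ, ih, pow_succ]; group

end Algebra

section Transfer

variable {k : Type} [Field k] [Valued k Γ₀]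

theorem inU_mono820 {m m' : ℕ} (h : m ≤ m') {g : GL (Fin 2) k} (hg : InU m' g) : InU m g := by
  intro i j
  have hle : WithZero.exp (-(m' : ℤ)) ≤ (WithZero.exp (-(m : ℤ)) : Γ₀) := by
    rw [WithZero.exp_le_exp]
    omega
  exact ⟨(hg i j).1.trans hle, (hg i j).2.trans hle⟩

theorem isBiInv_mono820 {m m' : ℕ} (h : m ≤ m') {ψ : GL (Fin 2) k → ℂ}
    (hψ : IsBiInv (InU m) ψ) : IsBiInv (InU m') ψ :=
  fun u u' g hu hu' => hψ u u' g (inU_mono820 h hu) (inU_mono820 h hu')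

/-- The compact centralisers of `y` and of `ρ y` coincide. -/
theorem inTwCentC_root820 {l : ℕ} {ρ : GL (Fin 2) k → GL (Fin 2) k} {y : GL (Fin 2) k}
    (hpow : (ρ y) ^ l = y)
    (heq : ∀ x : GL (Fin 2) k, ρ (x⁻¹ * y * x) = x⁻¹ * ρ y * x) (t : GL (Fin 2) k) :
    InTwCentC (RingEquiv.refl k) y t ↔ InTwCentC (RingEquiv.refl k) (ρ y) t := by
  unfold InTwCentC InTwCent
  rw [glAut_refl820]
  constructor
  · rintro ⟨h1, h2⟩
    refine ⟨?_, h2⟩
    have := heq t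
    rw [h1] at this
    exact this.symm
  · rintro ⟨h1, h2⟩
    refine ⟨?_, h2⟩
    have := congrArg (fun z => z ^ l) h1
    simp only [conj_pow820, hpow] at this
    exact this

theorem cIndex_root820 {l m : ℕ} {ρ : GL (Fin 2) k → GL (Fin 2) k} {y : GL (Fin 2) k}
    (hpow : (ρ y) ^ l = y)
    (heq : ∀ x : GL (Fin 2) k, ρ (x⁻¹ * y * x) = x⁻¹ * ρ y * x) :
    cIndex (InU m) (InTwCentC (RingEquiv.refl k)) y
      = cIndex (InU m) (InTwCentC (RingEquiv.refl k)) (ρ y) := by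
  unfold cIndex
  congr 1
  ext c
  simp only [Set.mem_ofPred_eq]
  constructor
  · rintro ⟨t, ht, hc⟩
    exact ⟨t, (inTwCentC_root820 hpow heq t).1 ht, hc⟩
  · rintro ⟨t, ht, hc⟩
    exact ⟨t, (inTwCentC_root820 hpow heq t).2 ht, hc⟩

/-- **Transfer of orbit sums along an equivariant root.** -/
theorem orbSum_root820 {l : ℕ} {N₀ N₁ : ℤ} {m' : ℕ} {ψ f₀ : GL (Fin 2) k → ℂ}
    {ρ : GL (Fin 2) k → GL (Fin 2) k} (hρ : IsRootOn820 l N₀ N₁ ψ ρ f₀)
    {γ : GL (Fin 2) k} (hγ : IsReg γ) (hball : InChiBall783 2 1 N₁ γ) {c : ℂ}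
    (hc : IsOrbSum m' f₀ γ c) : IsOrbSum m' ψ (ρ γ) c := by
  classical
  obtain ⟨R, h1, h2, h3, h4⟩ := hc
  -- the elements of the class of `γ`
  have hcl : ∀ y : GL (Fin 2) k, (∃ x : GL (Fin 2) k, y = x⁻¹ * γ * glAut (RingEquiv.refl k) x) →
      IsReg y ∧ InChiBall783 2 1 N₁ y ∧ ∃ x : GL (Fin 2) k, y = x⁻¹ * γ * x ∧
        ρ y = x⁻¹ * ρ γ * x := by
    rintro y ⟨x, rfl⟩
    rw [glAut_refl820]
    exact ⟨isReg_conj820 hγ, inChiBall_conj820 hball, x, rfl, (hρ γ hγ hball).2.2.2.1 x⟩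
  have hinj : ∀ y ∈ R, ∀ y' ∈ R, ρ y = ρ y' → y = y' := by
    intro y hy y' hy' e
    have a := (hρ y (hcl y (h1 y hy)).1 (hcl y (h1 y hy)).2.1).1
    have a' := (hρ y' (hcl y' (h1 y' hy')).1 (hcl y' (h1 y' hy')).2.1).1
    rw [← a, ← a', e]
  refine ⟨R.image ρ, ?_, ?_, ?_, ?_⟩
  · intro z hz
    obtain ⟨y, hy, rfl⟩ := Finset.mem_image.1 hz
    obtain ⟨-, -, x, -, hx⟩ := hcl y (h1 y hy)
    exact ⟨x, by rw [glAut_refl820]; exact hx⟩
  · intro z hz z' hz' hu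
    obtain ⟨y, hy, rfl⟩ := Finset.mem_image.1 hz
    obtain ⟨y', hy', rfl⟩ := Finset.mem_image.1 hz'
    obtain ⟨u, hu, e⟩ := hu
    rw [glAut_refl820] at e
    have a := (hρ y (hcl y (h1 y hy)).1 (hcl y (h1 y hy)).2.1).1
    have a' := (hρ y' (hcl y' (h1 y' hy')).1 (hcl y' (h1 y' hy')).2.1).1
    have e' : y' = u⁻¹ * y * glAut (RingEquiv.refl k) u := by
      rw [glAut_refl820, ← a, ← a', e, conj_pow820]
    rw [h2 y hy y' hy' ⟨u, hu, e'⟩]
  · intro z hz hne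
    obtain ⟨x, hx⟩ := hz
    rw [glAut_refl820] at hx
    -- `z = ρ y` with `y = x⁻¹ γ x`
    have hy0 : ∃ x' : GL (Fin 2) k, x⁻¹ * γ * x = x'⁻¹ * γ * glAut (RingEquiv.refl k) x' :=
      ⟨x, by rw [glAut_refl820]⟩
    obtain ⟨hyr, hyb, -⟩ := hcl (x⁻¹ * γ * x) hy0
    have hzy : ρ (x⁻¹ * γ * x) = z := by
      rw [(hρ γ hγ hball).2.2.2.1 x, hx]
    have hf : f₀ (x⁻¹ * γ * x) ≠ 0 := by
      rw [(hρ _ hyr hyb).2.2.2.2, hzy]
      exact hne
    obtain ⟨y', hy', u, hu, e⟩ := h3 _ hy0 hf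
    rw [glAut_refl820] at e
    refine ⟨ρ y', Finset.mem_image_of_mem ρ hy', u, hu, ?_⟩
    rw [glAut_refl820, ← hzy, e]
    exact (hρ y' (hcl y' (h1 y' hy')).1 (hcl y' (h1 y' hy')).2.1).2.2.2.1 u
  · rw [h4, Finset.sum_image hinj]
    refine Finset.sum_congr rfl fun y hy => ?_
    obtain ⟨hyr, hyb, -⟩ := hcl y (h1 y hy)
    obtain ⟨hp, -, -, heq, hf⟩ := hρ y hyr hyb
    rw [hf, cIndex_root820 hp heq]

/-- Scaling an orbit sum. -/
theorem orbSum_smul820 {m : ℕ} {f : GL (Fin 2) k → ℂ} {γ : GL (Fin 2) k} {c : ℂ} {a : ℂ}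
    (ha : a ≠ 0) (hc : IsOrbSum m (fun y => a * f y) γ c) : IsOrbSum m f γ (a⁻¹ * c) := by
  obtain ⟨R, h1, h2, h3, h4⟩ := hc
  refine ⟨R, h1, h2, ?_, ?_⟩
  · intro y hy hne
    exact h3 y hy (mul_ne_zero ha hne)
  · rw [h4, Finset.mul_sum]
    refine Finset.sum_congr rfl fun y _ => ?_
    rw [← mul_assoc, ← mul_assoc, inv_mul_cancel₀ ha, one_mul]

end Transfer

/-- The untwisted instance of `OrbSumExC`. -/
theorem orbSumEx_untw820 (hEx : OrbSumExC) (k : Type) [Field k] [Valued k Γ₀] (q : ℕ)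
    (hk : IsLocalField k q) (n : ℕ) (φ : GL (Fin 2) k → ℂ) (hφ : IsBiInv (InU n) φ)
    (hφf : HasFinSupp (InU n) φ) (δ : GL (Fin 2) k) (hδ : IsReg δ) :
    ∃ c : ℂ, IsOrbSum n φ δ c := by
  have hext : IsLocalExt k k 1 1 (RingHom.id k) (RingEquiv.refl k) :=
    { cyc :=
        { pos := Nat.one_pos
          fix_i := fun _ => rfl
          fixed := fun y _ => ⟨y, rfl⟩
          order := fun _ => rfl
          faithful := fun m h0 h1 => by omega }
      e_pos := Nat.one_pos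
      val_i := fun x => by simp
      val_s := fun _ => rfl }
  have hk' : IsLocalField k (q ^ (1 / 1)) := by simpa using hk
  have hreg : IsReg (twNorm (RingEquiv.refl k) 1 δ) := by
    have : twNorm (RingEquiv.refl k) 1 δ = δ := by
      simp [twNorm, twN]
    rw [this]
    exact hδ
  exact hEx k k q 1 1 (RingHom.id k) (RingEquiv.refl k) hk hk' hext n φ hφ hφf δ hreg

/-- **THE GLUE**: `PowC783` from the existence of orbit sums, the level change and the `l`-th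
root near the identity. -/
theorem powC_of_leaves820 (hEx : OrbSumExC) (hLvl : LvlC783) (hRoot : PowRootC820) :
    PowC783 := by
  intro k _ _ q l hk hl N₀ m ψ hψb hψf
  obtain ⟨N₁, m', ρ, f₀, hmm', hf₀b, hf₀f, hρ⟩ := hRoot k q l hk hl N₀ m ψ hψb hψf
  obtain ⟨κ, hκ, hκ'⟩ := hLvl k q hk m m' hmm'
  have hκC : (κ : ℂ) ≠ 0 := Nat.cast_ne_zero.2 hκ
  refine ⟨N₁, m', fun y => (κ : ℂ)⁻¹ * f₀ y, ?_, ?_, ?_⟩
  · intro u u' g hu hu'
    simp only
    rw [hf₀b u u' g hu hu']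
  · obtain ⟨F, hF⟩ := hf₀f
    exact ⟨F, fun g hg => hF g (right_ne_zero_of_mul hg)⟩
  · intro γ hγ hball
    obtain ⟨hp, hreg, hb0, -, -⟩ := hρ γ hγ hball
    refine ⟨ρ γ, hp, hb0, ?_⟩
    intro c' hc'
    -- orbit sum of `f₀` at `γ`, level `m'`
    have h1 : IsOrbSum m' f₀ γ ((κ : ℂ) * c') := by
      have := orbSum_smul820 (inv_ne_zero hκC) hc'
      rwa [inv_inv] at this
    -- transfer to `h = ρ γ`
    have h2 : IsOrbSum m' ψ (ρ γ) ((κ : ℂ) * c') := orbSum_root820 hρ hγ hball h1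
    -- existence at level `m` and level change
    obtain ⟨c, hc⟩ := orbSumEx_untw820 hEx k q hk m ψ hψb hψf (ρ γ) hreg
    have h3 := hκ' ψ hψb (ρ γ) c ((κ : ℂ) * c') hreg hc h2
    have : c' = c := mul_left_cancel₀ hκC h3
    rw [this]
    exact hc

/-- `PowC783` from the four leaves. -/
theorem powC_of_all820 (hEx : OrbSumExC) (hLvl : LvlC783) (hFn : RootFnC820)
    (hB : PowRootFromFnC820) : PowC783 :=
  powC_of_leaves820 hEx hLvl (hB hFn)

end Fermat.Agent.LT.T6.H820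

end
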