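import Fermat.Agent.LT.T6.H783.CenSpec

/-!
# Row LT, tower T6, leaf T6.18g3 `H783.PowC783`: THIRD-LEVEL SUB-SPEC (seat helper820)

OFF-MAIN.  Definitions + frozen Props (nothing assumed).  The PROVED glue is in
`PowTop.lean`:

    powC_of_leaves820 : T6.OrbSumExC → H783.LvlC783 → PowRootC820 → H783.PowC783
    powC_of_all820 : T6.OrbSumExC → H783.LvlC783 → RootFnC820 → PowRootFromFnC820 → H783.PowC783

## The cut

`PowC783` = (ALGEBRA of orbit sums, done in `PowTop.lean`) + (ANALYSIS: the `l`-th root near `1`).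

* ALGEBRA (`PowTop.lean`).  Let `ρ` be a conjugation-equivariant `l`-th root on the regular
  elements of a `χ`-ball `V(N₁)` around `(2, 1)` and `f₀ = ψ ∘ ρ` there.  Then `ρ` maps the class
  of `γ` bijectively onto the class of `h = ρ γ`, commutes with conjugation by `U(m')`, and
  `T_y = T_{ρ y}` (`t` commutes with `y` iff it commutes with `ρ y`: equivariance and
  `(ρ y) ^ l = y`), so `O^{(m')}_γ(f₀) = O^{(m')}_h(ψ)`; the level change `LvlC783`
  (`O^{(m')} = κ O^{(m)}`) and the existence of `O^{(m)}_h(ψ)` (`OrbSumExC` for `k' = k`, `l = 1`)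
  give `O^{(m')}_γ(κ⁻¹ f₀) = O^{(m)}_h(ψ)`.
* ANALYSIS = `PowRootC820`: the root `ρ` and the function `f₀`.
  Construction: `ρ(y) = a(χ y) · y + b(χ y)` with `(a X + b) ^ l ≡ X mod (X² - t X + d)`,
  `(a, b)(t, d)` near `(1/l, 1 - 1/l)` for `(t, d)` near `(2, 1)`: with `X = 1 + Y`,
  `Y² = τ Y - δ` (`τ = t - 2`, `δ = d - t + 1`), `(1 + Y)^{1/l} = ∑ₙ binom(1/l, n) Yⁿ`,
  `Yⁿ = αₙ Y + βₙ`, `|αₙ|, |βₙ| ≤ max(|τ|, |δ|^{1/2})^{n-1}`; the series converge for
  `max(|τ|, |δ|^{1/2}) < |l| · |p|^{1/(p-1)}` (`l = p` allowed), and `a`, `b` are Lipschitz.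
  (Or: two-variable Newton iteration for `(u, w) ↦ (1 + w + u Y) ^ l - 1 - Y`, Jacobian `≈ l²`.)
  `f₀ = (ψ ∘ ρ) · 1_{V(N₁)}`: finite support because `y = (ρ y) ^ l` and `supp ψ` is compact;
  bi-`U(m')`-invariant for `m'` large by uniform continuity of `ρ` and of `χ` on the support
  (as in `CutC783`).  Equivariance is clear from the shape of `ρ`; `ρ y` is regular because
  `y = (ρ y) ^ l` is.
-/

set_option autoImplicit false

open scoped Matrix

noncomputable section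

namespace Fermat.Agent.LT.T6.H820

open Fermat.Agent.LT.T6 Fermat.Agent.LT.T6.H783

/-- `ρ` is a conjugation-equivariant `l`-th root on the regular elements of the `χ`-ball of
radius `exp(-N₁)` around `(2, 1)`, with values in the `χ`-ball of radius `exp(-N₀)`, and
`f₀ = ψ ∘ ρ` there. -/
def IsRootOn820 {k : Type} [Field k] [Valued k Γ₀] (l : ℕ) (N₀ N₁ : ℤ)
    (ψ : GL (Fin 2) k → ℂ) (ρ : GL (Fin 2) k → GL (Fin 2) k) (f₀ : GL (Fin 2) k → ℂ) : Prop :=
  ∀ y : GL (Fin 2) k, IsReg y → InChiBall783 2 1 N₁ y →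
    (ρ y) ^ l = y ∧ IsReg (ρ y) ∧ InChiBall783 2 1 N₀ (ρ y) ∧
      (∀ x : GL (Fin 2) k, ρ (x⁻¹ * y * x) = x⁻¹ * ρ y * x) ∧ f₀ y = ψ (ρ y)

/-- **T6.18g3.1 (the `l`-th root near the identity; ANALYSIS).**  For `ψ` bi-`U(m)`-invariant of
finite support and `N₀` there are `N₁`, `m' ≥ m`, a conjugation-equivariant `l`-th root `ρ` on the
regular elements of the `χ`-ball `V(N₁)` with values in `V(N₀)`, and a bi-`U(m')`-invariant
function `f₀` of finite support with `f₀ = ψ ∘ ρ` on the regular elements of `V(N₁)`. -/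
def PowRootC820 : Prop :=
  ∀ (k : Type) [Field k] [Valued k Γ₀] (q l : ℕ), IsLocalField k q → 0 < l →
    ∀ (N₀ : ℤ) (m : ℕ) (ψ : GL (Fin 2) k → ℂ), IsBiInv (InU m) ψ → HasFinSupp (InU m) ψ →
      ∃ (N₁ : ℤ) (m' : ℕ) (ρ : GL (Fin 2) k → GL (Fin 2) k) (f₀ : GL (Fin 2) k → ℂ),
        m ≤ m' ∧ IsBiInv (InU m') f₀ ∧ HasFinSupp (InU m') f₀ ∧ IsRootOn820 l N₀ N₁ ψ ρ f₀

/-- **T6.18g3.1a (the root functions; ANALYSIS IN `k` ONLY, no matrices beyond Cayley--Hamilton).**
There are `N₁`, `C` and functions `a`, `b` on `k × k` such that on the ball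
`|t - 2|, |d - 1| ≤ exp(-N₁)`:
* `(a M + b) ^ l = M` for every `2 × 2` matrix `M` with trace `t` and determinant `d`
  (equivalently `(a X + b) ^ l ≡ X mod (X² - t X + d)`; Cayley--Hamilton);
* trace `a t + 2 b` and determinant `a² d + a b t + b²` of `a M + b` are within `exp(-N₀)` of
  `2` and `1`;
* `|a|, |b| ≤ exp C`, and `a`, `b` are Lipschitz with constant `exp C`.
At `(t, d) = (2, 1)`: `a = 1/l`, `b = 1 - 1/l` (`M = 1 + n`, `n² = 0`, `(1 + n/l)^l = 1 + n`).
Construction: binomial series (header), or Newton iteration / the inverse function theorem for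
`(a, b) ↦ (P_l, Q_l)`, `(a X + b)^n ≡ P_n X + Q_n`, `P_{n+1} = (a t + b) P_n + a Q_n`,
`Q_{n+1} = b Q_n - a d P_n`; the Jacobian at `(1/l, 1 - 1/l; 2, 1)` is
`[[2l - 1, l - 1], [1 - l, 1]]` of determinant `l²` (non-zero: `CharZero k`). -/
def RootFnC820 : Prop :=
  ∀ (k : Type) [Field k] [Valued k Γ₀] (q l : ℕ), IsLocalField k q → 0 < l → ∀ N₀ : ℤ,
    ∃ (N₁ C : ℤ) (a b : k → k → k),
      ∀ t d : k, Valued.v (t - 2 : k) ≤ WithZero.exp (-N₁) →
        Valued.v (d - 1 : k) ≤ WithZero.exp (-N₁) →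
        (∀ M : Matrix (Fin 2) (Fin 2) k, M.trace = t → M.det = d →
          (a t d • M + b t d • (1 : Matrix (Fin 2) (Fin 2) k)) ^ l = M) ∧
        Valued.v (a t d * t + 2 * b t d - 2 : k) ≤ WithZero.exp (-N₀) ∧
        Valued.v (a t d ^ 2 * d + a t d * b t d * t + b t d ^ 2 - 1 : k)
          ≤ WithZero.exp (-N₀) ∧
        Valued.v (a t d : k) ≤ WithZero.exp C ∧ Valued.v (b t d : k) ≤ WithZero.exp C ∧
        ∀ t' d' : k, Valued.v (t' - 2 : k) ≤ WithZero.exp (-N₁) →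
          Valued.v (d' - 1 : k) ≤ WithZero.exp (-N₁) →
          Valued.v (a t d - a t' d' : k)
              ≤ WithZero.exp C * max (Valued.v (t - t' : k)) (Valued.v (d - d' : k)) ∧
            Valued.v (b t d - b t' d' : k)
              ≤ WithZero.exp C * max (Valued.v (t - t' : k)) (Valued.v (d - d' : k))

/-- **T6.18g3.1b (from the root functions to the root on `GL₂(k)`; matrix estimates and
compactness).**  `ρ(y) = a(χ y) y + b(χ y)` on the `χ`-ball (invertible because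
`(ρ y)^l = y`; regular because `y` is: if `disc h = 0` then `h = λ + n`, `n² = 0`, and
`disc (h^l) = 0`; equivariant because `χ` is a class function), `f₀ = (ψ ∘ ρ) · 1_{V(N₁)}`.
FINITE SUPPORT: `y = (ρ y)^l ∈ (supp ψ)^l`, a bounded set with `|det|` bounded below, which is
a finite union of cosets `x U(m')` (finite residue system, induction on the digits).
BI-INVARIANCE: outside the bounded set `U(0) (supp f₀) U(0)` both sides vanish; on it
`χ(u y u') - χ(y)` is `≤ exp(c - m')` (so `1_{V(N₁)}` is invariant for `m' ≥ N₁ + c`),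
`ρ(u y u') = u ρ(y u' u) u⁻¹` and `ρ(y u'') ∈ ρ(y) U(m)` for `u'' ∈ U(m')`, `m' ≥ m + c'`
(Lipschitz bound for `a`, `b`, bounded `ρ(y)⁻¹`). -/
def PowRootFromFnC820 : Prop := RootFnC820 → PowRootC820

end Fermat.Agent.LT.T6.H820

end
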